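import Fermat.Agent.H97.Shap.Interfaces
import Fermat.Agent.H87.Cft.LvlSes

/-!
# P-CFT / FRAME / FR-SHAP, rows SH-1b and SH-1c (helper60)

* `smoothPackage : SmoothPackageStatement` — `Maplvl` is smooth, `A ↪ Maplvl(G, A)` is a
  monomorphism, sub- and quotient modules of smooth modules are smooth;
* `coindPackage : CoindPackageStatement` — `Coind_U` preserves smoothness and short exact
  sequences, and `Coind_U Maplvl(U, A₀) ≅ Maplvl(G, A₀)`.
-/

set_option autoImplicit false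

universe u

open CategoryTheory groupCohomology

namespace Fermat.Agent.H60.Shap

open Fermat.Agent.H13.Cft Fermat.Agent.H97.Shap

variable {k G : Type u} [CommRing k] [Group G]

/-! ### Exactness in `Rep k G` -/

/-- A short complex in `Rep k G` which is exact on underlying modules is exact. -/
theorem sc_exact_of_forall {X₁ X₂ X₃ : Rep.{u} k G} (f : X₁ ⟶ X₂) (g : X₂ ⟶ X₃) (w : f ≫ g = 0)
    (h : ∀ b : X₂, g.hom b = 0 → ∃ a : X₁, f.hom a = b) :
    (ShortComplex.mk f g w).Exact := by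
  rw [← ShortComplex.exact_map_iff_of_faithful _ (forget₂ (Rep.{u} k G) (ModuleCat.{u} k))]
  rw [ShortComplex.moduleCat_exact_iff]
  intro x hx
  exact h x hx

/-- The three set-theoretic properties of a short exact sequence in `Rep k G`. -/
theorem sc_shortExact_props (X : ShortComplex (Rep.{u} k G)) (hX : X.ShortExact) :
    Function.Injective X.f.hom ∧ Function.Surjective X.g.hom ∧
      ∀ b : X.X₂, X.g.hom b = 0 → ∃ a : X.X₁, X.f.hom a = b := by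
  have hinj : Function.Injective X.f.hom := by
    have := hX.mono_f
    exact (Rep.mono_iff_injective X.f).mp this
  have hsurj : Function.Surjective X.g.hom := by
    have := hX.epi_g
    exact (Rep.epi_iff_surjective X.g).mp this
  have hex : LinearMap.range X.f.hom.toLinearMap = LinearMap.ker X.g.hom.toLinearMap :=
    (hX.exact.map (forget₂ (Rep k G) (ModuleCat k))).moduleCat_range_eq_ker
  refine ⟨hinj, hsurj, fun b hb => ?_⟩
  have h1 : b ∈ LinearMap.ker X.g.hom.toLinearMap := hb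
  rw [← hex] at h1
  exact h1

/-! ### SH-1b -/

/-- `Maplvl(G, A₀)` is smooth. -/
theorem mapLvl_isSmooth (𝒰 : LevelSys G) (A₀ : Type u) [AddCommGroup A₀] [Module k A₀] :
    IsSmooth 𝒰 (mapLvl k 𝒰 A₀) := by
  intro f
  obtain ⟨N, hN, hf⟩ := (f : mapLvlV k 𝒰 A₀).2
  refine ⟨N, hN, fun s hs => ?_⟩
  apply Subtype.ext
  funext x
  exact hf x s hs

/-- `A ↪ Maplvl(G, A)` is a monomorphism. -/
theorem mapLvlEmb_mono (𝒰 : LevelSys G) (A : Rep.{u} k G) (hA : IsSmooth 𝒰 A) :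
    Mono (mapLvlEmb 𝒰 A hA) := by
  rw [Rep.mono_iff_injective]
  intro a b hab
  have h1 : ((mapLvlEmb 𝒰 A hA).hom a).1 1 = ((mapLvlEmb 𝒰 A hA).hom b).1 1 := by rw [hab]
  have h2 : A.ρ 1 a = A.ρ 1 b := h1
  simpa using h2

/-- Sub- and quotient modules of smooth modules are smooth. -/
theorem isSmooth_of_shortExact (𝒰 : LevelSys G) (X : ShortComplex (Rep.{u} k G))
    (hX : X.ShortExact) (h : IsSmooth 𝒰 X.X₂) : IsSmooth 𝒰 X.X₁ ∧ IsSmooth 𝒰 X.X₃ := by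
  obtain ⟨hinj, hsurj, -⟩ := sc_shortExact_props X hX
  constructor
  · intro a
    obtain ⟨N, hN, hfix⟩ := h (X.f.hom a)
    refine ⟨N, hN, fun s hs => hinj ?_⟩
    rw [Rep.hom_comm_apply, hfix s hs]
  · intro c
    obtain ⟨b, rfl⟩ := hsurj c
    obtain ⟨N, hN, hfix⟩ := h b
    refine ⟨N, hN, fun s hs => ?_⟩
    rw [← Rep.hom_comm_apply, hfix s hs]

/-- **SH-1b** -/
theorem smoothPackage : SmoothPackageStatement.{u} := by
  intro k G _ _ 𝒰
  exact ⟨fun A₀ _ _ => mapLvl_isSmooth 𝒰 A₀, fun A hA => mapLvlEmb_mono 𝒰 A hA,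
    fun X hX h => isSmooth_of_shortExact 𝒰 X hX h⟩

/-! ### SH-1c -/

/-- For a normal subgroup `N₀`, every `x` differs on the left from the chosen representative of
its coset by an element of `N₀`. -/
theorem mul_out_inv_mem (N₀ : Subgroup G) (hn : N₀.Normal) (x : G) :
    x * (Quotient.out (x : G ⧸ N₀))⁻¹ ∈ N₀ := by
  have h1 : ((Quotient.out (x : G ⧸ N₀) : G) : G ⧸ N₀) = (x : G ⧸ N₀) := Quotient.out_eq _
  have h2 : (Quotient.out (x : G ⧸ N₀))⁻¹ * x ∈ N₀ := QuotientGroup.eq.mp h1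
  have h3 := hn.conj_mem _ h2 (Quotient.out (x : G ⧸ N₀))
  have e : Quotient.out (x : G ⧸ N₀) * ((Quotient.out (x : G ⧸ N₀))⁻¹ * x) *
      (Quotient.out (x : G ⧸ N₀))⁻¹ = x * (Quotient.out (x : G ⧸ N₀))⁻¹ := by group
  rwa [e] at h3

/-- `Coind_U` preserves smoothness. -/
theorem coind_isSmooth (𝒰 : LevelSys G) (U : Subgroup G) (hU : ∃ N ∈ 𝒰.sets, N ≤ U)
    (A : Rep.{u} k U) (hA : IsSmooth (𝒰.restrict U hU) A) :
    IsSmooth 𝒰 (Rep.coind U.subtype A) := by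
  classical
  intro F
  obtain ⟨N₀, hN₀, hN₀U⟩ := hU
  have hn₀ : N₀.Normal := 𝒰.normal N₀ hN₀
  have : N₀.FiniteIndex := 𝒰.finiteIndex N₀ hN₀
  have : Finite (G ⧸ N₀) := Subgroup.finite_quotient_of_finiteIndex
  have key : ∀ c : G ⧸ N₀, ∃ N ∈ 𝒰.sets, ∀ s, s ∈ N → ∀ hsU : s ∈ U,
      A.ρ ⟨s, hsU⟩ (F.1 (Quotient.out c)) = F.1 (Quotient.out c) := by
    intro c
    obtain ⟨N', ⟨N, hN, hNU, rfl⟩, hfix⟩ := hA (F.1 (Quotient.out c))
    exact ⟨N, hN, fun s hs hsU => hfix ⟨s, hsU⟩ (by rwa [Subgroup.mem_subgroupOf])⟩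
  choose L hL hLfix using key
  obtain ⟨N₁, hN₁, hN₁le⟩ := Fermat.Agent.H87.Cft.exists_level_le_of_finite 𝒰 L hL
  obtain ⟨N, hN, hNle⟩ := 𝒰.directed N₀ hN₀ N₁ hN₁
  have hn : N.Normal := 𝒰.normal N hN
  refine ⟨N, hN, fun s hs => ?_⟩
  apply Subtype.ext
  funext x
  show F.1 (x * s) = F.1 x
  have hu : x * (Quotient.out (x : G ⧸ N₀))⁻¹ ∈ N₀ := mul_out_inv_mem N₀ hn₀ x
  have hsr : Quotient.out (x : G ⧸ N₀) * s * (Quotient.out (x : G ⧸ N₀))⁻¹ ∈ N :=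
    hn.conj_mem s hs _
  have hsrU : Quotient.out (x : G ⧸ N₀) * s * (Quotient.out (x : G ⧸ N₀))⁻¹ ∈ U :=
    hN₀U (hNle.trans inf_le_left hsr)
  have e1 : x * s = U.subtype (⟨x * (Quotient.out (x : G ⧸ N₀))⁻¹, hN₀U hu⟩ *
      ⟨Quotient.out (x : G ⧸ N₀) * s * (Quotient.out (x : G ⧸ N₀))⁻¹, hsrU⟩) *
      Quotient.out (x : G ⧸ N₀) := by
    simp only [Subgroup.subtype_apply, Subgroup.coe_mul]
    group
  have e2 : x = U.subtype ⟨x * (Quotient.out (x : G ⧸ N₀))⁻¹, hN₀U hu⟩ *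
      Quotient.out (x : G ⧸ N₀) := by
    simp only [Subgroup.subtype_apply]
    group
  have h1 := F.2 (⟨x * (Quotient.out (x : G ⧸ N₀))⁻¹, hN₀U hu⟩ *
      ⟨Quotient.out (x : G ⧸ N₀) * s * (Quotient.out (x : G ⧸ N₀))⁻¹, hsrU⟩)
      (Quotient.out (x : G ⧸ N₀))
  have h2 := F.2 ⟨x * (Quotient.out (x : G ⧸ N₀))⁻¹, hN₀U hu⟩ (Quotient.out (x : G ⧸ N₀))
  rw [← e1] at h1
  rw [← e2] at h2
  rw [h1, h2, map_mul, Module.End.mul_apply,
    hLfix _ _ (hN₁le _ (hNle.trans inf_le_right hsr)) hsrU]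

/-- `Coind_U` preserves short exact sequences. -/
theorem coind_shortExact (U : Subgroup G) (X : ShortComplex (Rep.{u} k U)) (hX : X.ShortExact) :
    ∃ w : Rep.coindMap U.subtype X.f ≫ Rep.coindMap U.subtype X.g = 0,
      (ShortComplex.mk (Rep.coindMap U.subtype X.f) (Rep.coindMap U.subtype X.g) w).ShortExact := by
  obtain ⟨hinj, hsurj, hex⟩ := sc_shortExact_props X hX
  have w : Rep.coindMap U.subtype X.f ≫ Rep.coindMap U.subtype X.g = 0 := by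
    have h1 := (Rep.coindFunctor k U.subtype).map_comp X.f X.g
    rw [X.zero, Functor.map_zero] at h1
    exact h1.symm
  refine ⟨w, { exact := ?_, mono_f := ?_, epi_g := ?_ }⟩
  · apply sc_exact_of_forall
    intro F hF
    have hF' : ∀ x : G, X.g.hom (F.1 x) = 0 := fun x =>
      congrArg (fun z : (Rep.coind U.subtype X.X₃) => z.1 x) hF
    choose a ha using fun x => hex (F.1 x) (hF' x)
    refine ⟨⟨a, fun v x => hinj ?_⟩, Subtype.ext (funext ha)⟩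
    rw [ha, Rep.hom_comm_apply, ha]
    exact F.2 v x
  · rw [Rep.mono_iff_injective]
    intro F F' h
    apply Subtype.ext
    funext x
    apply hinj
    exact congrArg (fun z : (Rep.coind U.subtype X.X₂) => z.1 x) h
  · have := hX.epi_g
    exact (Rep.coindFunctor k U.subtype).map_epi X.g

/-! #### `Coind_U Maplvl(U, A₀) ≅ Maplvl(G, A₀)` -/

section Iso

variable (𝒰 : LevelSys G) (U : Subgroup G) (hU : ∃ N ∈ 𝒰.sets, N ≤ U)
  (A₀ : Type u) [AddCommGroup A₀] [Module k A₀]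

/-- The function `g ↦ F g 1` is level-constant. -/
theorem coindMapLvl_fwd_mem
    (F : Representation.coindV U.subtype (mapLvlRep k (𝒰.restrict U hU) A₀)) :
    (fun g : G => (F.1 g).1 1) ∈ mapLvlV k 𝒰 A₀ := by
  classical
  obtain ⟨N₀, hN₀, hN₀U⟩ := hU
  have hn₀ : N₀.Normal := 𝒰.normal N₀ hN₀
  have : N₀.FiniteIndex := 𝒰.finiteIndex N₀ hN₀
  have : Finite (G ⧸ N₀) := Subgroup.finite_quotient_of_finiteIndex
  have key : ∀ c : G ⧸ N₀, ∃ N ∈ 𝒰.sets, ∀ (v : U) (s : G), s ∈ N → ∀ hsU : s ∈ U,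
      (F.1 (Quotient.out c)).1 (v * ⟨s, hsU⟩) = (F.1 (Quotient.out c)).1 v := by
    intro c
    obtain ⟨N', ⟨N, hN, hNU, rfl⟩, hfix⟩ := (F.1 (Quotient.out c)).2
    exact ⟨N, hN, fun v s hs hsU => hfix v ⟨s, hsU⟩ (by rwa [Subgroup.mem_subgroupOf])⟩
  choose L hL hLfix using key
  obtain ⟨N₁, hN₁, hN₁le⟩ := Fermat.Agent.H87.Cft.exists_level_le_of_finite 𝒰 L hL
  obtain ⟨N, hN, hNle⟩ := 𝒰.directed N₀ hN₀ N₁ hN₁
  have hn : N.Normal := 𝒰.normal N hN
  refine ⟨N, hN, fun x s hs => ?_⟩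
  show (F.1 (x * s)).1 1 = (F.1 x).1 1
  have hu : x * (Quotient.out (x : G ⧸ N₀))⁻¹ ∈ N₀ := mul_out_inv_mem N₀ hn₀ x
  have hsr : Quotient.out (x : G ⧸ N₀) * s * (Quotient.out (x : G ⧸ N₀))⁻¹ ∈ N :=
    hn.conj_mem s hs _
  have hsrU : Quotient.out (x : G ⧸ N₀) * s * (Quotient.out (x : G ⧸ N₀))⁻¹ ∈ U :=
    hN₀U (hNle.trans inf_le_left hsr)
  have e1 : x * s = U.subtype (⟨x * (Quotient.out (x : G ⧸ N₀))⁻¹, hN₀U hu⟩ *
      ⟨Quotient.out (x : G ⧸ N₀) * s * (Quotient.out (x : G ⧸ N₀))⁻¹, hsrU⟩) *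
      Quotient.out (x : G ⧸ N₀) := by
    simp only [Subgroup.subtype_apply, Subgroup.coe_mul]
    group
  have e2 : x = U.subtype ⟨x * (Quotient.out (x : G ⧸ N₀))⁻¹, hN₀U hu⟩ *
      Quotient.out (x : G ⧸ N₀) := by
    simp only [Subgroup.subtype_apply]
    group
  have h1 := F.2 (⟨x * (Quotient.out (x : G ⧸ N₀))⁻¹, hN₀U hu⟩ *
      ⟨Quotient.out (x : G ⧸ N₀) * s * (Quotient.out (x : G ⧸ N₀))⁻¹, hsrU⟩)
      (Quotient.out (x : G ⧸ N₀))
  have h2 := F.2 ⟨x * (Quotient.out (x : G ⧸ N₀))⁻¹, hN₀U hu⟩ (Quotient.out (x : G ⧸ N₀))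
  rw [← e1] at h1
  rw [← e2] at h2
  rw [h1, h2, mapLvlRep_apply, mapLvlRep_apply, one_mul, one_mul]
  exact hLfix _ _ _ (hN₁le _ (hNle.trans inf_le_right hsr)) hsrU

/-- The function `u ↦ f (u * g)` on `U` is level-constant. -/
theorem coindMapLvl_bwd_mem (f : mapLvlV k 𝒰 A₀) (g : G) :
    (fun v : U => f.1 ((v : G) * g)) ∈ mapLvlV k (𝒰.restrict U hU) A₀ := by
  obtain ⟨N, hN, hf⟩ := f.2
  obtain ⟨N₀, hN₀, hN₀U⟩ := hU
  obtain ⟨N', hN', hle⟩ := 𝒰.directed N hN N₀ hN₀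
  have hn : N.Normal := 𝒰.normal N hN
  refine ⟨_, ⟨N', hN', (hle.trans inf_le_right).trans hN₀U, rfl⟩, fun v t ht => ?_⟩
  rw [Subgroup.mem_subgroupOf] at ht
  show f.1 (((v * t : U) : G) * g) = f.1 ((v : G) * g)
  have e : ((v * t : U) : G) * g = (v : G) * g * (g⁻¹ * (t : G) * g⁻¹⁻¹) := by
    rw [Subgroup.coe_mul]
    group
  rw [e]
  exact hf _ _ (hn.conj_mem _ (hle.trans inf_le_left ht) g⁻¹)

/-- The linear equivalence underlying `Coind_U Maplvl(U, A₀) ≅ Maplvl(G, A₀)`. -/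
noncomputable def coindMapLvlEquiv :
    Representation.coindV U.subtype (mapLvlRep k (𝒰.restrict U hU) A₀) ≃ₗ[k] mapLvlV k 𝒰 A₀ where
  toFun F := ⟨fun g => (F.1 g).1 1, coindMapLvl_fwd_mem 𝒰 U hU A₀ F⟩
  map_add' F F' := by
    apply Subtype.ext
    funext g
    rfl
  map_smul' c F := by
    apply Subtype.ext
    funext g
    rfl
  invFun f := ⟨fun g => ⟨fun v => f.1 ((v : G) * g), coindMapLvl_bwd_mem 𝒰 U hU A₀ f g⟩,
    fun v g => by
      apply Subtype.ext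
      funext w
      show f.1 ((w : G) * (U.subtype v * g)) = f.1 (((w * v : U) : G) * g)
      rw [Subgroup.subtype_apply, Subgroup.coe_mul, mul_assoc]⟩
  left_inv F := by
    apply Subtype.ext
    funext g
    apply Subtype.ext
    funext v
    show (F.1 ((v : G) * g)).1 1 = (F.1 g).1 v
    have h := F.2 v g
    rw [Subgroup.subtype_apply] at h
    rw [h, mapLvlRep_apply, one_mul]
  right_inv f := by
    apply Subtype.ext
    funext g
    show f.1 (((1 : U) : G) * g) = f.1 g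
    rw [Subgroup.coe_one, one_mul]

/-- `Coind_U Maplvl(U, A₀) ≅ Maplvl(G, A₀)`. -/
theorem coindMapLvl_iso :
    Nonempty (Rep.coind U.subtype (mapLvl k (𝒰.restrict U hU) A₀) ≅ mapLvl k 𝒰 A₀) :=
  ⟨Rep.mkIso (Representation.Equiv.mk (coindMapLvlEquiv 𝒰 U hU A₀) (fun h => by
    ext F
    rfl))⟩

end Iso

/-- **SH-1c** -/
theorem coindPackage : CoindPackageStatement.{u} := by
  intro k G _ _ 𝒰 U hU
  exact ⟨fun A hA => coind_isSmooth 𝒰 U hU A hA, fun X hX => coind_shortExact U X hX,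
    fun A₀ _ _ => coindMapLvl_iso 𝒰 U hU A₀⟩

end Fermat.Agent.H60.Shap
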